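/-
S26 / block UFD (factoriality of the local rings of a smooth variety): STATEMENTS (stubs).
Architect: helper86.  Mathlib only.  Each leaf is proved VERBATIM in its own final file
`Fermat/Agent/S26/UFD/<Name>.lean` (namespace `Fermat.Agent.S26.UFD`).
-/
import Mathlib

set_option autoImplicit false

open scoped Polynomial PowerSeries

namespace Fermat.Agent.S26.UFD.WIP

/-! ### U1 `UFD/Descent.lean` : Mori descent -/

theorem isDomain_of_faithfullyFlat (R S : Type*) [CommRing R] [CommRing S] [IsDomain S]
    [Algebra R S] [Module.FaithfullyFlat R S] : IsDomain R := sorry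

theorem ufd_of_faithfullyFlat (R S : Type*) [CommRing R] [IsDomain R] [IsLocalRing R]
    [IsNoetherianRing R] [CommRing S] [IsDomain S] [UniqueFactorizationMonoid S]
    [Algebra R S] [Module.FaithfullyFlat R S] : UniqueFactorizationMonoid R := sorry

/-! ### U2 `UFD/Complete.lean` -/

theorem isAdicComplete_mvPowerSeries (K : Type*) [Field K] (n : ℕ) :
    IsAdicComplete (IsLocalRing.maximalIdeal (MvPowerSeries (Fin n) K))
      (MvPowerSeries (Fin n) K) := sorry

/-! ### U3 `UFD/Weierstrass.lean` -/

theorem exists_prime_factors_of_map_ne_zero (A : Type*) [CommRing A] [IsDomain A] [IsLocalRing A]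
    [UniqueFactorizationMonoid A] [IsAdicComplete (IsLocalRing.maximalIdeal A) A]
    (f : A⟦X⟧) (hf : f.map (IsLocalRing.residue A) ≠ 0) :
    ∃ s : Multiset A⟦X⟧, (∀ p ∈ s, Prime p) ∧ Associated s.prod f := sorry

/-! ### U4 `UFD/Coord.lean` -/

theorem exists_ringEquiv_map_ne_zero (K : Type*) [Field K] [Infinite K] (n : ℕ)
    (f : MvPowerSeries (Fin (n + 1)) K) (hf : f ≠ 0) :
    ∃ e : MvPowerSeries (Fin (n + 1)) K ≃+* MvPowerSeries (Fin (n + 1)) K,
      (MvPowerSeries.finSuccEquiv K n (e f)).map
        (IsLocalRing.residue (MvPowerSeries (Fin n) K)) ≠ 0 := sorry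

/-! ### U5 `UFD/PowerSeries.lean` -/

theorem ufd_mvPowerSeries (K : Type*) [Field K] [Infinite K] (n : ℕ) :
    UniqueFactorizationMonoid (MvPowerSeries (Fin n) K) := sorry

/-! ### U6 `UFD/Completion*.lean` -/

section Completion

variable (K : Type*) [Field K] (g : ℕ) (R : Type*) [CommRing R] [IsLocalRing R]
  [IsNoetherianRing R] [Algebra (MvPolynomial (Fin g) K) R]

/-- U6a -/
theorem bijective_quotient_pow [Module.Flat (MvPolynomial (Fin g) K) R]
    (hm : (MvPolynomial.idealOfVars (Fin g) K).map (algebraMap _ R) = IsLocalRing.maximalIdeal R)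
    (hres : Function.Surjective
      ((IsLocalRing.residue R).comp (algebraMap (MvPolynomial (Fin g) K) R))) (k : ℕ) :
    Function.Bijective (Ideal.quotientMap (IsLocalRing.maximalIdeal R ^ k)
      (algebraMap (MvPolynomial (Fin g) K) R)
      (show MvPolynomial.idealOfVars (Fin g) K ^ k ≤
          (IsLocalRing.maximalIdeal R ^ k).comap (algebraMap _ R) from by
        rw [← hm, ← Ideal.map_pow]; exact Ideal.le_comap_map)) := sorry

end Completion

/-- U6b : a ring map inducing bijections modulo all powers induces an isomorphism of completions. -/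
theorem nonempty_adicCompletion_ringEquiv (P R : Type*) [CommRing P] [CommRing R] (φ : P →+* R)
    (I : Ideal P) (J : Ideal R) (hIJ : ∀ k, I ^ k ≤ (J ^ k).comap φ)
    (h : ∀ k, Function.Bijective (Ideal.quotientMap (J ^ k) φ (hIJ k))) :
    Nonempty (AdicCompletion I P ≃+* AdicCompletion J R) := sorry

/-- U6c -/
theorem faithfullyFlat_adicCompletion (R : Type*) [CommRing R] [IsLocalRing R]
    [IsNoetherianRing R] :
    Module.FaithfullyFlat R (AdicCompletion (IsLocalRing.maximalIdeal R) R) := sorry

/-- U6 -/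
theorem exists_faithfullyFlat_mvPowerSeries (K : Type*) [Field K] (g : ℕ) (R : Type*) [CommRing R]
    [IsLocalRing R] [IsNoetherianRing R] [Algebra (MvPolynomial (Fin g) K) R]
    [Module.Flat (MvPolynomial (Fin g) K) R]
    (hm : (MvPolynomial.idealOfVars (Fin g) K).map (algebraMap _ R) = IsLocalRing.maximalIdeal R)
    (hres : Function.Surjective
      ((IsLocalRing.residue R).comp (algebraMap (MvPolynomial (Fin g) K) R))) :
    ∃ _ : Algebra R (MvPowerSeries (Fin g) K),
      Module.FaithfullyFlat R (MvPowerSeries (Fin g) K) := sorry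

/-! ### U7 `UFD/Local.lean` : the export of the block -/

theorem ufd_of_flat_of_map_idealOfVars (K : Type*) [Field K] [Infinite K] (g : ℕ) (R : Type*)
    [CommRing R] [IsLocalRing R] [IsNoetherianRing R] [Algebra (MvPolynomial (Fin g) K) R]
    [Module.Flat (MvPolynomial (Fin g) K) R]
    (hm : (MvPolynomial.idealOfVars (Fin g) K).map (algebraMap _ R) = IsLocalRing.maximalIdeal R)
    (hres : Function.Surjective
      ((IsLocalRing.residue R).comp (algebraMap (MvPolynomial (Fin g) K) R))) :
    ∃ _ : IsDomain R, UniqueFactorizationMonoid R := sorry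

/-! ### U8 `UFD/Trdeg.lean` -/

theorem trdeg_quotient_lt (K B : Type*) [Field K] [CommRing B] [IsDomain B] [Algebra K B]
    (Q : Ideal B) [Q.IsPrime] (hQ : Q ≠ ⊥) (hfin : Algebra.trdeg K B < Cardinal.aleph0) :
    Algebra.trdeg K (B ⧸ Q) < Algebra.trdeg K B := sorry

end Fermat.Agent.S26.UFD.WIP
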