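/-
S26 / block UFD, leaf U6 (helper120): assembly of U6a, U6b, U6c, against the STUBS.
When `UFD/CompletionQuot.lean`, `UFD/CompletionIso.lean`, `UFD/CompletionFlat.lean` are landed:
move the theorem below to `UFD/Completion.lean`, import these three files and delete the three
`WIP.` prefixes.
-/
import Fermat.Agent.S26.UFD.Completion
import Fermat.Agent.S26.UFD.WIP.Stubs

set_option autoImplicit false

namespace Fermat.Agent.S26.UFD

/-- U6 -/
theorem exists_faithfullyFlat_mvPowerSeries (K : Type*) [Field K] (g : ℕ) (R : Type*) [CommRing R]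
    [IsLocalRing R] [IsNoetherianRing R] [Algebra (MvPolynomial (Fin g) K) R]
    [Module.Flat (MvPolynomial (Fin g) K) R]
    (hm : (MvPolynomial.idealOfVars (Fin g) K).map (algebraMap _ R) = IsLocalRing.maximalIdeal R)
    (hres : Function.Surjective
      ((IsLocalRing.residue R).comp (algebraMap (MvPolynomial (Fin g) K) R))) :
    ∃ _ : Algebra R (MvPowerSeries (Fin g) K),
      Module.FaithfullyFlat R (MvPowerSeries (Fin g) K) :=
  exists_faithfullyFlat_mvPowerSeries_of K g R
    (WIP.nonempty_adicCompletion_ringEquiv (MvPolynomial (Fin g) K) R (algebraMap _ R)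
      (MvPolynomial.idealOfVars (Fin g) K) (IsLocalRing.maximalIdeal R) _
      (WIP.bijective_quotient_pow K g R hm hres))
    (WIP.faithfullyFlat_adicCompletion R)

end Fermat.Agent.S26.UFD
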