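/-
S26 / block UFD, leaf U5: assembly on the stubs (WIP: switch the import to the final files
`UFD/Complete.lean`, `UFD/Weierstrass.lean`, `UFD/Coord.lean` when they land; the final file is
`UFD/PowerSeries.lean`).
-/
import Fermat.Agent.S26.UFD.PowerSeriesOf
import Fermat.Agent.S26.UFD.WIP.Stubs

set_option autoImplicit false

open scoped Polynomial PowerSeries

namespace Fermat.Agent.S26.UFD.WIP

theorem ufd_mvPowerSeries_proof (K : Type*) [Field K] [Infinite K] (n : ℕ) :
    UniqueFactorizationMonoid (MvPowerSeries (Fin n) K) :=
  ufd_mvPowerSeries_of K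
    (fun n hU f hf => by
      have := hU
      have : IsDomain (MvPowerSeries (Fin n) K) := NoZeroDivisors.to_isDomain _
      have := isAdicComplete_mvPowerSeries K n
      exact exists_prime_factors_of_map_ne_zero _ f hf)
    (exists_ringEquiv_map_ne_zero K) n

end Fermat.Agent.S26.UFD.WIP
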